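import Mathlib

/-!
# Row LT, tower T7, leaf CM.10 `MulGC616` (helper270): the abstract core

OFF-MAIN.  Mathlib only.  `G` a group, `U` a subgroup, `Hg`, `Hg'` full systems of
representatives of `U g U / U`, `U g' U / U`.  On the right `U`-invariant functions the product
of the two double coset operators is a linear combination of double coset operators
`[U y U]`, where `y` may be taken in any class `Pb` which meets every double coset in
`U g U g' U`.

* `IsSys270 U g H` -- `H` is a full system of representatives of `U g U / U`;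
* `RInv270 U ψ`    -- `ψ` is right invariant under `U`;
* `mul_core270`    -- the product formula.
-/

set_option autoImplicit false

namespace Fermat.Agent.LT.T7.H270

open scoped Classical

section Core

variable {G : Type} [Group G] (U : Subgroup G)

/-- `H` is a full system of representatives of `U g U / U`. -/
def IsSys270 (g : G) (H : Finset G) : Prop :=
  (∀ h ∈ H, ∃ u₁ u₂ : G, u₁ ∈ U ∧ u₂ ∈ U ∧ h = u₁ * g * u₂) ∧
    (∀ h ∈ H, ∀ h' ∈ H, h ≠ h' → ¬ (h⁻¹ * h' ∈ U)) ∧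
    ∀ u : G, u ∈ U → ∃ h ∈ H, h⁻¹ * (u * g) ∈ U

/-- `ψ` is right invariant under `U`. -/
def RInv270 (ψ : G → ℂ) : Prop := ∀ u : G, u ∈ U → ∀ x : G, ψ (x * u) = ψ x

variable {U}

theorem rinv_congr270 {ψ : G → ℂ} (hψ : RInv270 U ψ) {y y' : G}
    (h : (y : G ⧸ U) = (y' : G ⧸ U)) : ψ y = ψ y' := by
  have hu : y⁻¹ * y' ∈ U := QuotientGroup.eq.1 h
  have := hψ _ hu y
  rw [mul_inv_cancel_left] at this
  exact this.symm

theorem rinv_out270 {ψ : G → ℂ} (hψ : RInv270 U ψ) (y : G) :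
    ψ ((y : G ⧸ U).out) = ψ y :=
  rinv_congr270 hψ (QuotientGroup.out_eq' _)

theorem rinv_translate270 {ψ : G → ℂ} (hψ : RInv270 U ψ) (x : G) :
    RInv270 U (fun y => ψ (x * y)) := by
  intro u hu y
  show ψ (x * (y * u)) = ψ (x * y)
  rw [← mul_assoc]
  exact hψ u hu _

/-- Left multiplication is well defined on the cosets. -/
theorem mk_mul_congr270 (a : G) {y y' : G} (h : (y : G ⧸ U) = (y' : G ⧸ U)) :
    ((a * y : G) : G ⧸ U) = ((a * y' : G) : G ⧸ U) := by
  rw [QuotientGroup.eq] at h ⊢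
  have : (a * y)⁻¹ * (a * y') = y⁻¹ * y' := by group
  rw [this]
  exact h

theorem mk_mul_cancel270 (a : G) {y y' : G}
    (h : ((a * y : G) : G ⧸ U) = ((a * y' : G) : G ⧸ U)) : (y : G ⧸ U) = (y' : G ⧸ U) := by
  have := mk_mul_congr270 (U := U) a⁻¹ h
  simpa using this

theorem mk_mul_right270 (y : G) {u : G} (hu : u ∈ U) :
    ((y * u : G) : G ⧸ U) = (y : G ⧸ U) := by
  rw [QuotientGroup.eq]
  have : (y * u)⁻¹ * y = u⁻¹ := by group
  rw [this]
  exact U.inv_mem hu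

/-! ## Systems of representatives -/

/-- Every element of `U g U` is equivalent to a representative. -/
theorem IsSys270.exists_rep {g : G} {H : Finset G} (hH : IsSys270 U g H) {z : G}
    (hz : ∃ a b : G, a ∈ U ∧ b ∈ U ∧ z = a * g * b) :
    ∃ h ∈ H, (h : G ⧸ U) = (z : G ⧸ U) := by
  obtain ⟨a, b, ha, hb, rfl⟩ := hz
  obtain ⟨h, hh, hu⟩ := hH.2.2 a ha
  refine ⟨h, hh, ?_⟩
  rw [mk_mul_right270 (a * g) hb]
  exact QuotientGroup.eq.2 hu

theorem IsSys270.mul_mem_dbl {g : G} {H : Finset G} (hH : IsSys270 U g H) {a h : G}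
    (ha : a ∈ U) (hh : h ∈ H) : ∃ a' b : G, a' ∈ U ∧ b ∈ U ∧ a * h = a' * g * b := by
  obtain ⟨u₁, u₂, h1, h2, rfl⟩ := hH.1 h hh
  exact ⟨a * u₁, u₂, U.mul_mem ha h1, h2, by group⟩

theorem IsSys270.injOn_mk {g : G} {H : Finset G} (hH : IsSys270 U g H) (a : G) :
    Set.InjOn (fun h : G => ((a * h : G) : G ⧸ U)) (H : Set G) := by
  intro h hh h' hh' e
  by_contra hne
  have e' : (h : G ⧸ U) = (h' : G ⧸ U) := mk_mul_cancel270 a e
  exact hH.2.1 h hh h' hh' hne (QuotientGroup.eq.1 e')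

theorem IsSys270.image_translate {g : G} {H : Finset G} (hH : IsSys270 U g H) {a : G}
    (ha : a ∈ U) :
    H.image (fun h : G => ((a * h : G) : G ⧸ U)) = H.image (fun h : G => (h : G ⧸ U)) := by
  ext q
  simp only [Finset.mem_image]
  constructor
  · rintro ⟨h, hh, rfl⟩
    obtain ⟨h₁, hh₁, e⟩ := hH.exists_rep (hH.mul_mem_dbl ha hh)
    exact ⟨h₁, hh₁, e⟩
  · rintro ⟨h, hh, rfl⟩
    obtain ⟨h₁, hh₁, e⟩ := hH.exists_rep (hH.mul_mem_dbl (U.inv_mem ha) hh)
    refine ⟨h₁, hh₁, ?_⟩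
    have := mk_mul_congr270 (U := U) a e
    rw [this]
    congr 1
    group

/-- **Fact 1**: the sum over a system of representatives of a right invariant function is
invariant under left translation by `U`. -/
theorem IsSys270.sum_translate {g : G} {H : Finset G} (hH : IsSys270 U g H) {f : G → ℂ}
    (hf : RInv270 U f) {a : G} (ha : a ∈ U) :
    ∑ h ∈ H, f (a * h) = ∑ h ∈ H, f h := by
  have e1 : ∑ h ∈ H, f (a * h)
      = ∑ q ∈ H.image (fun h : G => ((a * h : G) : G ⧸ U)), f q.out := by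
    rw [Finset.sum_image (hH.injOn_mk a)]
    exact Finset.sum_congr rfl fun h _ => (rinv_out270 hf _).symm
  have e2 : ∑ h ∈ H, f h = ∑ q ∈ H.image (fun h : G => (h : G ⧸ U)), f q.out := by
    have hinj : Set.InjOn (fun h : G => (h : G ⧸ U)) (H : Set G) := by
      have := hH.injOn_mk (1 : G)
      simpa using this
    rw [Finset.sum_image hinj]
    exact Finset.sum_congr rfl fun h _ => (rinv_out270 hf _).symm
  rw [e1, e2, hH.image_translate ha]

/-- The inner sum is right invariant. -/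
theorem IsSys270.rinv_sum {g : G} {H : Finset G} (hH : IsSys270 U g H) {f : G → ℂ}
    (hf : RInv270 U f) : RInv270 U (fun z => ∑ h ∈ H, f (z * h)) := by
  intro u hu z
  show ∑ h ∈ H, f (z * u * h) = ∑ h ∈ H, f (z * h)
  have := hH.sum_translate (rinv_translate270 hf z) hu
  simpa [mul_assoc] using this

/-- **Invariance of the double sum** under left translation by `U`. -/
theorem sum_sum_translate270 {g g' : G} {Hg Hg' : Finset G} (hg : IsSys270 U g Hg)
    (hg' : IsSys270 U g' Hg') {f : G → ℂ} (hf : RInv270 U f) {a : G} (ha : a ∈ U) :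
    ∑ h ∈ Hg, ∑ h' ∈ Hg', f (a * (h * h')) = ∑ h ∈ Hg, ∑ h' ∈ Hg', f (h * h') := by
  have := hg.sum_translate (hg'.rinv_sum hf) ha
  simpa [mul_assoc] using this

/-! ## The orbit relation on the cosets -/

variable (U)

/-- `q'` lies in the `U`-orbit of the coset `q`. -/
def Orb270 (q q' : G ⧸ U) : Prop := ∃ a : G, a ∈ U ∧ ((a * q.out : G) : G ⧸ U) = q'

variable {U}

theorem orb_mk270 {a y : G} (ha : a ∈ U) : Orb270 U (y : G ⧸ U) ((a * y : G) : G ⧸ U) :=
  ⟨a, ha, mk_mul_congr270 a (QuotientGroup.out_eq' _)⟩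

theorem orb_iff270 {y : G} {q' : G ⧸ U} :
    Orb270 U (y : G ⧸ U) q' ↔ ∃ a : G, a ∈ U ∧ ((a * y : G) : G ⧸ U) = q' := by
  constructor
  · rintro ⟨a, ha, rfl⟩
    exact ⟨a, ha, (mk_mul_congr270 a (QuotientGroup.out_eq' _)).symm⟩
  · rintro ⟨a, ha, rfl⟩
    exact orb_mk270 ha

theorem orb_refl270 (q : G ⧸ U) : Orb270 U q q :=
  ⟨1, U.one_mem, by rw [one_mul]; exact QuotientGroup.out_eq' q⟩

theorem orb_symm270 {q q' : G ⧸ U} (h : Orb270 U q q') : Orb270 U q' q := by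
  obtain ⟨a, ha, rfl⟩ := h
  refine ⟨a⁻¹, U.inv_mem ha, ?_⟩
  have e : (((a * q.out : G) : G ⧸ U).out : G ⧸ U) = ((a * q.out : G) : G ⧸ U) :=
    QuotientGroup.out_eq' _
  have := mk_mul_congr270 (U := U) a⁻¹ e
  rw [this, inv_mul_cancel_left]
  exact QuotientGroup.out_eq' q

theorem orb_trans270 {q q' q'' : G ⧸ U} (h : Orb270 U q q') (h' : Orb270 U q' q'') :
    Orb270 U q q'' := by
  obtain ⟨a, ha, rfl⟩ := h
  obtain ⟨b, hb, rfl⟩ := h'
  refine ⟨b * a, U.mul_mem hb ha, ?_⟩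
  have e : (((a * q.out : G) : G ⧸ U).out : G ⧸ U) = ((a * q.out : G) : G ⧸ U) :=
    QuotientGroup.out_eq' _
  have := mk_mul_congr270 (U := U) b e
  rw [this, mul_assoc]

/-! ## Averaging over the classes of an equivalence relation on a finite set -/

/-- Orbit averaging: if `N` is constant on the classes of an equivalence relation `R`, then the
`N`-weighted sum over `F` is the sum over the points `q₀` of `F` of the averages over the class of
`q₀`, weighted by `N q₀`. -/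
theorem sum_class_avg270 {α : Type} (F : Finset α) (R : α → α → Prop)
    (hrefl : ∀ q, R q q) (hsymm : ∀ q q', R q q' → R q' q)
    (htrans : ∀ q q' q'', R q q' → R q' q'' → R q q'') (N : α → ℂ)
    (hN : ∀ q q', R q q' → N q = N q') (f : α → ℂ) :
    ∑ q₀ ∈ F, (N q₀ / ((F.filter (R q₀)).card : ℂ)) * ∑ q ∈ F.filter (R q₀), f q
      = ∑ q ∈ F, N q * f q := by
  have hfilt : ∀ q₀ q, R q₀ q → F.filter (R q₀) = F.filter (R q) := by
    intro q₀ q h
    refine Finset.filter_congr fun z _ => ?_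
    exact ⟨fun hz => htrans _ _ _ (hsymm _ _ h) hz, fun hz => htrans _ _ _ h hz⟩
  calc ∑ q₀ ∈ F, (N q₀ / ((F.filter (R q₀)).card : ℂ)) * ∑ q ∈ F.filter (R q₀), f q
      = ∑ q₀ ∈ F, ∑ q ∈ F,
          if R q₀ q then (N q₀ / ((F.filter (R q₀)).card : ℂ)) * f q else 0 := by
        refine Finset.sum_congr rfl fun q₀ _ => ?_
        rw [Finset.mul_sum, Finset.sum_filter]
    _ = ∑ q ∈ F, ∑ q₀ ∈ F,
          if R q₀ q then (N q₀ / ((F.filter (R q₀)).card : ℂ)) * f q else 0 :=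
        Finset.sum_comm
    _ = ∑ q ∈ F, ∑ q₀ ∈ F,
          if R q q₀ then (N q / ((F.filter (R q)).card : ℂ)) * f q else 0 := by
        refine Finset.sum_congr rfl fun q _ => ?_
        refine Finset.sum_congr rfl fun q₀ _ => ?_
        by_cases h : R q₀ q
        · rw [if_pos h, if_pos (hsymm _ _ h), hN _ _ h, hfilt _ _ h]
        · have h' : ¬ R q q₀ := fun h' => h (hsymm _ _ h')
          rw [if_neg h, if_neg h']
    _ = ∑ q ∈ F, N q * f q := by
        refine Finset.sum_congr rfl fun q hq => ?_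
        rw [← Finset.sum_filter, Finset.sum_const, nsmul_eq_mul]
        have hpos : ((F.filter (R q)).card : ℂ) ≠ 0 := by
          have : 0 < (F.filter (R q)).card :=
            Finset.card_pos.2 ⟨q, Finset.mem_filter.2 ⟨hq, hrefl q⟩⟩
          exact_mod_cast this.ne'
        field_simp

/-! ## The cosets in `U g U g' U` and their multiplicities -/

variable (U)

/-- The cosets `h h' U`, `h ∈ Hg`, `h' ∈ Hg'`. -/
noncomputable def prodSet270 (Hg Hg' : Finset G) : Finset (G ⧸ U) :=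
  (Hg ×ˢ Hg').image (fun p : G × G => ((p.1 * p.2 : G) : G ⧸ U))

/-- The multiplicity of the coset `q` among the cosets `h h' U`. -/
noncomputable def cnt270 (Hg Hg' : Finset G) (q : G ⧸ U) : ℂ :=
  ∑ h ∈ Hg, ∑ h' ∈ Hg', if ((h * h' : G) : G ⧸ U) = q then 1 else 0

variable {U}

theorem mem_prodSet270 {Hg Hg' : Finset G} {q : G ⧸ U} :
    q ∈ prodSet270 U Hg Hg' ↔ ∃ h ∈ Hg, ∃ h' ∈ Hg', ((h * h' : G) : G ⧸ U) = q := by
  unfold prodSet270
  simp only [Finset.mem_image, Finset.mem_product, Prod.exists]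
  constructor
  · rintro ⟨h, h', ⟨hh, hh'⟩, e⟩
    exact ⟨h, hh, h', hh', e⟩
  · rintro ⟨h, hh, h', hh', e⟩
    exact ⟨h, h', ⟨hh, hh'⟩, e⟩

/-- The set of the cosets `h h' U` is stable under `U`. -/
theorem prodSet_stable270 {g g' : G} {Hg Hg' : Finset G} (hg : IsSys270 U g Hg)
    (hg' : IsSys270 U g' Hg') {q q' : G ⧸ U} (hq : q ∈ prodSet270 U Hg Hg')
    (h : Orb270 U q q') : q' ∈ prodSet270 U Hg Hg' := by
  obtain ⟨h₀, hh₀, h₀', hh₀', rfl⟩ := mem_prodSet270.1 hq
  obtain ⟨a, ha, rfl⟩ := orb_iff270.1 h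
  obtain ⟨h₁, hh₁, e₁⟩ := hg.exists_rep (hg.mul_mem_dbl ha hh₀)
  have ha' : h₁⁻¹ * (a * h₀) ∈ U := QuotientGroup.eq.1 e₁
  obtain ⟨h₁', hh₁', e₁'⟩ := hg'.exists_rep (hg'.mul_mem_dbl ha' hh₀')
  refine mem_prodSet270.2 ⟨h₁, hh₁, h₁', hh₁', ?_⟩
  have := mk_mul_congr270 (U := U) h₁ e₁'
  rw [this]
  congr 1
  group

/-- The multiplicity is constant on the `U`-orbits. -/
theorem cnt_orb270 {g g' : G} {Hg Hg' : Finset G} (hg : IsSys270 U g Hg)
    (hg' : IsSys270 U g' Hg') {q q' : G ⧸ U} (h : Orb270 U q q') :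
    cnt270 U Hg Hg' q = cnt270 U Hg Hg' q' := by
  obtain ⟨a, ha, e⟩ := h
  have hf : RInv270 U (fun y : G => if (y : G ⧸ U) = q' then (1 : ℂ) else 0) := by
    intro u hu y
    show (if ((y * u : G) : G ⧸ U) = q' then (1 : ℂ) else 0) = _
    rw [mk_mul_right270 y hu]
  have key := sum_sum_translate270 hg hg' hf ha
  unfold cnt270
  rw [← key]
  refine Finset.sum_congr rfl fun h₀ _ => Finset.sum_congr rfl fun h₀' _ => ?_
  have hiff : ((h₀ * h₀' : G) : G ⧸ U) = q ↔ ((a * (h₀ * h₀') : G) : G ⧸ U) = q' := by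
    constructor
    · intro e'
      rw [← e]
      exact mk_mul_congr270 a (e'.trans (QuotientGroup.out_eq' q).symm)
    · intro e'
      rw [← e] at e'
      exact (mk_mul_cancel270 a e').trans (QuotientGroup.out_eq' q)
  by_cases hq : ((h₀ * h₀' : G) : G ⧸ U) = q
  · rw [if_pos hq, if_pos (hiff.1 hq)]
  · rw [if_neg hq, if_neg (fun h' => hq (hiff.2 h'))]

/-- The double sum as a sum over the cosets with multiplicities. -/
theorem sum_sum_eq_cnt270 {Hg Hg' : Finset G} {ψ : G → ℂ} (hψ : RInv270 U ψ) (x : G) :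
    ∑ h ∈ Hg, ∑ h' ∈ Hg', ψ (x * h * h')
      = ∑ q ∈ prodSet270 U Hg Hg', cnt270 U Hg Hg' q * ψ (x * q.out) := by
  have hx : RInv270 U (fun y => ψ (x * y)) := rinv_translate270 hψ x
  have e1 : ∀ h ∈ Hg, ∀ h' ∈ Hg', ψ (x * h * h')
      = ∑ q ∈ prodSet270 U Hg Hg',
          (if ((h * h' : G) : G ⧸ U) = q then (1 : ℂ) else 0) * ψ (x * q.out) := by
    intro h hh h' hh'
    have hmem : ((h * h' : G) : G ⧸ U) ∈ prodSet270 U Hg Hg' :=
      mem_prodSet270.2 ⟨h, hh, h', hh', rfl⟩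
    have : ∀ q ∈ prodSet270 U Hg Hg',
        (if ((h * h' : G) : G ⧸ U) = q then (1 : ℂ) else 0) * ψ (x * q.out)
          = if ((h * h' : G) : G ⧸ U) = q then ψ (x * q.out) else 0 := by
      intro q _
      split_ifs <;> simp
    rw [Finset.sum_congr rfl this, Finset.sum_ite_eq, if_pos hmem, mul_assoc]
    exact (rinv_out270 hx (h * h')).symm
  calc ∑ h ∈ Hg, ∑ h' ∈ Hg', ψ (x * h * h')
      = ∑ h ∈ Hg, ∑ h' ∈ Hg', ∑ q ∈ prodSet270 U Hg Hg',
          (if ((h * h' : G) : G ⧸ U) = q then (1 : ℂ) else 0) * ψ (x * q.out) :=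
        Finset.sum_congr rfl fun h hh => Finset.sum_congr rfl fun h' hh' => e1 h hh h' hh'
    _ = ∑ h ∈ Hg, ∑ q ∈ prodSet270 U Hg Hg', ∑ h' ∈ Hg',
          (if ((h * h' : G) : G ⧸ U) = q then (1 : ℂ) else 0) * ψ (x * q.out) :=
        Finset.sum_congr rfl fun h _ => Finset.sum_comm
    _ = ∑ q ∈ prodSet270 U Hg Hg', ∑ h ∈ Hg, ∑ h' ∈ Hg',
          (if ((h * h' : G) : G ⧸ U) = q then (1 : ℂ) else 0) * ψ (x * q.out) :=
        Finset.sum_comm
    _ = ∑ q ∈ prodSet270 U Hg Hg', cnt270 U Hg Hg' q * ψ (x * q.out) := by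
        refine Finset.sum_congr rfl fun q _ => ?_
        unfold cnt270
        rw [Finset.sum_mul]
        exact Finset.sum_congr rfl fun h _ => (Finset.sum_mul _ _ _).symm

/-! ## The system of representatives of an orbit -/

/-- The representatives `q.out` of the cosets `q` of the orbit of `q₀` form a full system of
representatives of `U y U / U`, for every `y` with `y U` in the orbit. -/
theorem isSys_orbit270 (F : Finset (G ⧸ U))
    (hF : ∀ q q', q ∈ F → Orb270 U q q' → q' ∈ F) {q₀ : G ⧸ U} (hq₀ : q₀ ∈ F) {y : G}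
    (hy : Orb270 U q₀ (y : G ⧸ U)) :
    IsSys270 U y ((F.filter (Orb270 U q₀)).image Quotient.out) := by
  refine ⟨?_, ?_, ?_⟩
  · intro h hh
    obtain ⟨q, hq, rfl⟩ := Finset.mem_image.1 hh
    have hq' : Orb270 U q₀ q := (Finset.mem_filter.1 hq).2
    have hyq : Orb270 U (y : G ⧸ U) q := orb_trans270 (orb_symm270 hy) hq'
    obtain ⟨a, ha, e⟩ := orb_iff270.1 hyq
    have e' : ((a * y : G) : G ⧸ U) = ((q.out : G) : G ⧸ U) :=
      e.trans (QuotientGroup.out_eq' q).symm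
    refine ⟨a, (a * y)⁻¹ * q.out, ha, QuotientGroup.eq.1 e', ?_⟩
    group
  · intro h hh h' hh' hne hmem
    obtain ⟨q, -, rfl⟩ := Finset.mem_image.1 hh
    obtain ⟨q', -, rfl⟩ := Finset.mem_image.1 hh'
    have e : ((q.out : G) : G ⧸ U) = ((q'.out : G) : G ⧸ U) := QuotientGroup.eq.2 hmem
    rw [QuotientGroup.out_eq', QuotientGroup.out_eq'] at e
    exact hne (by rw [e])
  · intro u hu
    have h1 : Orb270 U q₀ ((u * y : G) : G ⧸ U) := orb_trans270 hy (orb_mk270 hu)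
    have h2 : ((u * y : G) : G ⧸ U) ∈ F := hF _ _ hq₀ h1
    refine ⟨(((u * y : G) : G ⧸ U)).out,
      Finset.mem_image.2 ⟨_, Finset.mem_filter.2 ⟨h2, h1⟩, rfl⟩, ?_⟩
    exact QuotientGroup.eq.1 (QuotientGroup.out_eq' _)

theorem sum_image_out270 (O : Finset (G ⧸ U)) (f : G → ℂ) :
    ∑ h ∈ O.image Quotient.out, f h = ∑ q ∈ O, f q.out :=
  Finset.sum_image fun _ _ _ _ e => Quotient.out_injective e

/-! ## The product formula -/

/-- **The product formula.**  On the right `U`-invariant functions the product of the double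
coset operators `[U g U]`, `[U g' U]` is a linear combination of double coset operators
`[U y U]` with `y` in the class `Pb`, provided every product `h h'` of representatives lies in
`U y U` for some `y` in `Pb`. -/
theorem mul_core270 {g g' : G} {Hg Hg' : Finset G} (hg : IsSys270 U g Hg)
    (hg' : IsSys270 U g' Hg') (Pb : G → Prop)
    (hbad : ∀ h ∈ Hg, ∀ h' ∈ Hg', ∃ y : G, Pb y ∧
      ∃ u₁ u₂ : G, u₁ ∈ U ∧ u₂ ∈ U ∧ h * h' = u₁ * y * u₂) :
    ∃ (n : ℕ) (c : Fin n → ℂ) (y : Fin n → G) (H'' : Fin n → Finset G),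
      (∀ i, Pb (y i) ∧ IsSys270 U (y i) (H'' i)) ∧
      ∀ ψ : G → ℂ, RInv270 U ψ → ∀ x : G,
        ∑ h ∈ Hg, ∑ h' ∈ Hg', ψ (x * h * h') = ∑ i, c i * ∑ h'' ∈ H'' i, ψ (x * h'') := by
  set F : Finset (G ⧸ U) := prodSet270 U Hg Hg' with hFdef
  have hF : ∀ q q', q ∈ F → Orb270 U q q' → q' ∈ F :=
    fun q q' hq h => prodSet_stable270 hg hg' hq h
  -- a representative in `Pb` of the double coset of every point of `F`
  have hrep : ∀ q : F, ∃ y : G, Pb y ∧ Orb270 U (q : G ⧸ U) (y : G ⧸ U) := by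
    rintro ⟨q, hq⟩
    obtain ⟨h, hh, h', hh', rfl⟩ := mem_prodSet270.1 hq
    obtain ⟨y, hy, u₁, u₂, h1, h2, e⟩ := hbad h hh h' hh'
    refine ⟨y, hy, ?_⟩
    show Orb270 U ((h * h' : G) : G ⧸ U) (y : G ⧸ U)
    refine orb_iff270.2 ⟨u₁⁻¹, U.inv_mem h1, ?_⟩
    rw [e]
    have : u₁⁻¹ * (u₁ * y * u₂) = y * u₂ := by group
    rw [this]
    exact mk_mul_right270 y h2
  choose yF hyF using hrep
  let e : F ≃ Fin F.card := F.equivFin
  refine ⟨F.card,
    fun i => cnt270 U Hg Hg' (e.symm i : G ⧸ U)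
      / ((F.filter (Orb270 U (e.symm i : G ⧸ U))).card : ℂ),
    fun i => yF (e.symm i),
    fun i => (F.filter (Orb270 U (e.symm i : G ⧸ U))).image Quotient.out, ?_, ?_⟩
  · intro i
    exact ⟨(hyF (e.symm i)).1, isSys_orbit270 F hF (e.symm i).2 (hyF (e.symm i)).2⟩
  · intro ψ hψ x
    rw [sum_sum_eq_cnt270 hψ x]
    have h1 : ∀ i : Fin F.card,
        cnt270 U Hg Hg' (e.symm i : G ⧸ U)
            / ((F.filter (Orb270 U (e.symm i : G ⧸ U))).card : ℂ)
          * ∑ h'' ∈ (F.filter (Orb270 U (e.symm i : G ⧸ U))).image Quotient.out, ψ (x * h'')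
        = (fun q : F => cnt270 U Hg Hg' (q : G ⧸ U)
            / ((F.filter (Orb270 U (q : G ⧸ U))).card : ℂ)
          * ∑ q' ∈ F.filter (Orb270 U (q : G ⧸ U)), ψ (x * q'.out)) (e.symm i) := by
      intro i
      show _ = cnt270 U Hg Hg' (e.symm i : G ⧸ U)
            / ((F.filter (Orb270 U (e.symm i : G ⧸ U))).card : ℂ)
          * ∑ q' ∈ F.filter (Orb270 U (e.symm i : G ⧸ U)), ψ (x * q'.out)
      rw [sum_image_out270 _ (fun h => ψ (x * h))]
    rw [Finset.sum_congr rfl fun i _ => h1 i, Equiv.sum_comp e.symm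
      (fun q : F => cnt270 U Hg Hg' (q : G ⧸ U)
            / ((F.filter (Orb270 U (q : G ⧸ U))).card : ℂ)
          * ∑ q' ∈ F.filter (Orb270 U (q : G ⧸ U)), ψ (x * q'.out)),
      Finset.sum_coe_sort F (fun q => cnt270 U Hg Hg' q
            / ((F.filter (Orb270 U q)).card : ℂ)
          * ∑ q' ∈ F.filter (Orb270 U q), ψ (x * q'.out))]
    exact (sum_class_avg270 F (Orb270 U) orb_refl270 (fun _ _ => orb_symm270)
      (fun _ _ _ => orb_trans270) (cnt270 U Hg Hg') (fun _ _ h => cnt_orb270 hg hg' h)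
      (fun q => ψ (x * q.out))).symm

end Core

end Fermat.Agent.LT.T7.H270
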