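import Fermat.Agent.LT.T7.H616.ClassModelSpec
import Fermat.Agent.LT.H129.Local
import Fermat.Agent.LT.T7.H270.MulCore

/-!
# Row LT, tower T7, leaf CM.10 `MulGC616` (helper270)

OFF-MAIN.  On `T7/H616/ClassModelSpec.lean` (helper616, sha256 8568bae7), `H129/Local.lean`
(helper129) and the Mathlib-only core `T7/H270/MulCore.lean`.

    mulGC270 : CM616.MulGC616 K K'          (VERBATIM, unconditional)

Proof.  `U = U(𝔑₀)` is a subgroup (`levelSub270`).  The abstract product formula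
(`mul_core270`) gives `[U g U][U g' U] = ∑ c_i [U y_i U]` on the right `U`-invariant functions,
for any choice of `y_i` in the double cosets contained in `U g U g' U`.  Every such double coset
contains a bad element: `h h' = u₁ g u g' u₄` with `u ∈ U`; write `u = u_B u_R`, `u_B` the part
of `u` at the bad places (`exists_localPart270`), `u_R` trivial at the bad places; `u_R` commutes
with `g'`, so `h h' = u₁ (g u_B g') (u_R u₄)` and `g u_B g'` is bad.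
-/

set_option autoImplicit false

open AutomorphicForm IsDedekindDomain NumberField

noncomputable section

namespace Fermat.Agent.LT.T7.H270

open Fermat.Agent.LT.H556 Fermat.Agent.LT.H556.A0 Fermat.Agent.LT.T7 Fermat.Agent.LT.H129

open scoped Classical

section Level

variable {K : Type} [Field K] [NumberField K]

/-! ## 1. The level group is a subgroup -/

theorem idealClosure_zero270 (𝔫 : Ideal (𝓞 K)) (v : HeightOneSpectrum (𝓞 K)) :
    (0 : v.adicCompletion K) ∈ idealClosure 𝔫 v :=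
  subset_closure ⟨0, 𝔫.zero_mem, by simp⟩

theorem idealClosure_add270 (𝔫 : Ideal (𝓞 K)) (v : HeightOneSpectrum (𝓞 K))
    {x y : v.adicCompletion K} (hx : x ∈ idealClosure 𝔫 v) (hy : y ∈ idealClosure 𝔫 v) :
    x + y ∈ idealClosure 𝔫 v := by
  refine map_mem_closure₂ continuous_add hx hy ?_
  rintro _ ⟨a, ha, rfl⟩ _ ⟨b, hb, rfl⟩
  exact ⟨a + b, 𝔫.add_mem ha hb, by simp⟩

theorem idealClosure_mul270 (𝔫 : Ideal (𝓞 K)) (v : HeightOneSpectrum (𝓞 K))
    {x y : v.adicCompletion K} (hx : x ∈ idealClosure 𝔫 v) (hy : y ∈ idealClosure 𝔫 v) :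
    x * y ∈ idealClosure 𝔫 v := by
  refine map_mem_closure₂ continuous_mul hx hy ?_
  rintro _ ⟨a, ha, rfl⟩ _ ⟨b, hb, rfl⟩
  exact ⟨a * b, 𝔫.mul_mem_left a hb, by simp⟩

/-- The local condition: `M ≡ 1` modulo the closure of `𝔫`. -/
def LocOK270 (𝔫 : Ideal (𝓞 K)) (v : HeightOneSpectrum (𝓞 K))
    (M : Matrix (Fin 2) (Fin 2) (v.adicCompletion K)) : Prop :=
  ∀ i j, (M - 1) i j ∈ idealClosure 𝔫 v

theorem locOK_one270 (𝔫 : Ideal (𝓞 K)) (v : HeightOneSpectrum (𝓞 K)) :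
    LocOK270 𝔫 v 1 := by
  intro i j
  rw [sub_self]
  exact idealClosure_zero270 𝔫 v

theorem locOK_mul270 {𝔫 : Ideal (𝓞 K)} {v : HeightOneSpectrum (𝓞 K)}
    {A B : Matrix (Fin 2) (Fin 2) (v.adicCompletion K)} (hA : LocOK270 𝔫 v A)
    (hB : LocOK270 𝔫 v B) : LocOK270 𝔫 v (A * B) := by
  intro i j
  have e : A * B - 1 = (A - 1) * (B - 1) + (A - 1) + (B - 1) := by
    rw [Matrix.sub_mul, Matrix.mul_sub, Matrix.mul_sub, Matrix.mul_one, Matrix.one_mul,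
      Matrix.one_mul]
    abel
  rw [e, Matrix.add_apply, Matrix.add_apply, Matrix.mul_apply, Fin.sum_univ_two]
  exact idealClosure_add270 𝔫 v (idealClosure_add270 𝔫 v
    (idealClosure_add270 𝔫 v (idealClosure_mul270 𝔫 v (hA i 0) (hB 0 j))
      (idealClosure_mul270 𝔫 v (hA i 1) (hB 1 j))) (hA i j)) (hB i j)

theorem inLevelGroup_iff270 (𝔫 : Ideal (𝓞 K)) (u : G K) :
    InLevelGroup 𝔫 u ↔ (∀ w : InfinitePlace K, infCompHom129 w u = 1) ∧
      ∀ v : HeightOneSpectrum (𝓞 K),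
        LocOK270 𝔫 v ((finCompHom129 v u : GL (Fin 2) (v.adicCompletion K)) :
          Matrix (Fin 2) (Fin 2) (v.adicCompletion K)) ∧
        LocOK270 𝔫 v ((finCompHom129 v u⁻¹ : GL (Fin 2) (v.adicCompletion K)) :
          Matrix (Fin 2) (Fin 2) (v.adicCompletion K)) := by
  constructor
  · rintro ⟨h1, h2⟩
    refine ⟨fun w => (trivAtInf_iff129 w u).1 (h1 w), fun v => ⟨fun i j => ?_, fun i j => ?_⟩⟩
    · exact (h2 v i j).1
    · exact (h2 v i j).2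
  · rintro ⟨h1, h2⟩
    refine ⟨fun w => (trivAtInf_iff129 w u).2 (h1 w), fun v i j => ⟨?_, ?_⟩⟩
    · exact (h2 v).1 i j
    · exact (h2 v).2 i j

theorem inLevelGroup_one270 (𝔫 : Ideal (𝓞 K)) : InLevelGroup 𝔫 (1 : G K) := by
  rw [inLevelGroup_iff270]
  refine ⟨fun w => map_one _, fun v => ?_⟩
  rw [inv_one, map_one]
  exact ⟨locOK_one270 𝔫 v, locOK_one270 𝔫 v⟩

theorem inLevelGroup_inv270 {𝔫 : Ideal (𝓞 K)} {u : G K} (hu : InLevelGroup 𝔫 u) :
    InLevelGroup 𝔫 u⁻¹ := by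
  rw [inLevelGroup_iff270] at hu ⊢
  refine ⟨fun w => by rw [map_inv, hu.1 w, inv_one], fun v => ?_⟩
  rw [inv_inv]
  exact ⟨(hu.2 v).2, (hu.2 v).1⟩

theorem inLevelGroup_mul270 {𝔫 : Ideal (𝓞 K)} {u u' : G K} (hu : InLevelGroup 𝔫 u)
    (hu' : InLevelGroup 𝔫 u') : InLevelGroup 𝔫 (u * u') := by
  rw [inLevelGroup_iff270] at hu hu' ⊢
  refine ⟨fun w => by rw [map_mul, hu.1 w, hu'.1 w, mul_one], fun v => ⟨?_, ?_⟩⟩
  · rw [map_mul, Matrix.GeneralLinearGroup.coe_mul]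
    exact locOK_mul270 (hu.2 v).1 (hu'.2 v).1
  · rw [mul_inv_rev, map_mul, Matrix.GeneralLinearGroup.coe_mul]
    exact locOK_mul270 (hu'.2 v).2 (hu.2 v).2

/-- The level group `U(𝔫)` as a subgroup of `GL₂(𝔸_K)`. -/
def levelSub270 (𝔫 : Ideal (𝓞 K)) : Subgroup (G K) where
  carrier := {u | InLevelGroup 𝔫 u}
  mul_mem' := fun hu hu' => inLevelGroup_mul270 hu hu'
  one_mem' := inLevelGroup_one270 𝔫
  inv_mem' := fun hu => inLevelGroup_inv270 hu

theorem mem_levelSub270 {𝔫 : Ideal (𝓞 K)} {u : G K} :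
    u ∈ levelSub270 𝔫 ↔ InLevelGroup 𝔫 u := Iff.rfl

theorem isSys_iff270 (𝔫 : Ideal (𝓞 K)) (g : G K) (H : Finset (G K)) :
    IsSys270 (levelSub270 𝔫) g H ↔ IsDblCosetSystem 𝔫 g H := Iff.rfl

theorem rinv_iff270 (𝔫 : Ideal (𝓞 K)) (ψ : G K → ℂ) :
    RInv270 (levelSub270 𝔫) ψ ↔ CM616.IsLevelInv616 𝔫 ψ := Iff.rfl

/-! ## 2. The part of an element at a finite set of places -/

/-- `g` is trivial at the infinite places and at the finite places outside `B`. -/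
def SuppIn270 (B : Finset (HeightOneSpectrum (𝓞 K))) (g : G K) : Prop :=
  (∀ w : InfinitePlace K, infCompHom129 w g = 1) ∧
    ∀ v : HeightOneSpectrum (𝓞 K), v ∉ B → finCompHom129 v g = 1

theorem suppIn_mul270 {B : Finset (HeightOneSpectrum (𝓞 K))} {g h : G K}
    (hg : SuppIn270 B g) (hh : SuppIn270 B h) : SuppIn270 B (g * h) :=
  ⟨fun w => by rw [map_mul, hg.1 w, hh.1 w, mul_one],
    fun v hv => by rw [map_mul, hg.2 v hv, hh.2 v hv, mul_one]⟩

/-- The part of `u` at the places of `B`. -/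
theorem exists_localPart270 (B : Finset (HeightOneSpectrum (𝓞 K))) (u : G K) :
    ∃ uB : G K, SuppIn270 B uB ∧
      ∀ v ∈ B, finCompHom129 v uB = finCompHom129 v u := by
  induction B using Finset.induction_on with
  | empty =>
    exact ⟨1, ⟨fun w => map_one _, fun v _ => map_one _⟩, fun v hv => absurd hv (by simp)⟩
  | insert v₀ B hv₀ ih =>
    obtain ⟨uB, ⟨h1, h2⟩, h3⟩ := ih
    refine ⟨locFin129 v₀ (finCompHom129 v₀ u) * uB, ⟨fun w => ?_, fun v hv => ?_⟩,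
      fun v hv => ?_⟩
    · rw [map_mul, infCompHom129_locFin129, h1 w, mul_one]
    · have hne : v ≠ v₀ := fun e => hv (e ▸ Finset.mem_insert_self _ _)
      have hvB : v ∉ B := fun e => hv (Finset.mem_insert_of_mem e)
      rw [map_mul, finCompHom129_locFin129_of_ne v₀ _ hne, h2 v hvB, mul_one]
    · rcases Finset.mem_insert.1 hv with rfl | hvB
      · rw [map_mul, finCompHom129_locFin129, h2 _ hv₀, mul_one]
      · have hne : v ≠ v₀ := fun e => hv₀ (e ▸ hvB)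
        rw [map_mul, finCompHom129_locFin129_of_ne v₀ _ hne, one_mul, h3 v hvB]

/-- The part at `B` of an element of the level group is in the level group. -/
theorem localPart_mem270 {𝔫 : Ideal (𝓞 K)} {B : Finset (HeightOneSpectrum (𝓞 K))} {u uB : G K}
    (hu : InLevelGroup 𝔫 u) (hs : SuppIn270 B uB)
    (he : ∀ v ∈ B, finCompHom129 v uB = finCompHom129 v u) : InLevelGroup 𝔫 uB := by
  rw [inLevelGroup_iff270] at hu ⊢
  refine ⟨hs.1, fun v => ?_⟩
  by_cases hv : v ∈ B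
  · rw [map_inv, he v hv, ← map_inv]
    exact hu.2 v
  · rw [map_inv, hs.2 v hv, inv_one]
    exact ⟨locOK_one270 𝔫 v, locOK_one270 𝔫 v⟩

/-- Elements with disjoint supports commute. -/
theorem comm_of_supp270 {B : Finset (HeightOneSpectrum (𝓞 K))} {r g : G K}
    (hr1 : ∀ w : InfinitePlace K, infCompHom129 w r = 1)
    (hr2 : ∀ v ∈ B, finCompHom129 v r = 1) (hg : SuppIn270 B g) : r * g = g * r := by
  apply G_ext129
  · intro w
    rw [map_mul, map_mul, hr1 w, hg.1 w]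
  · intro v
    rw [map_mul, map_mul]
    by_cases hv : v ∈ B
    · rw [hr2 v hv, one_mul, mul_one]
    · rw [hg.2 v hv, one_mul, mul_one]

/-- Every double coset in `U g U g' U` (`g`, `g'` supported in `B`) contains an element
supported in `B`. -/
theorem exists_supp_rep270 {𝔫 : Ideal (𝓞 K)} {B : Finset (HeightOneSpectrum (𝓞 K))}
    {g g' h h' : G K} (hg : SuppIn270 B g) (hg' : SuppIn270 B g')
    (hh : ∃ u₁ u₂ : G K, InLevelGroup 𝔫 u₁ ∧ InLevelGroup 𝔫 u₂ ∧ h = u₁ * g * u₂)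
    (hh' : ∃ u₁ u₂ : G K, InLevelGroup 𝔫 u₁ ∧ InLevelGroup 𝔫 u₂ ∧ h' = u₁ * g' * u₂) :
    ∃ y : G K, SuppIn270 B y ∧
      ∃ u₁ u₂ : G K, InLevelGroup 𝔫 u₁ ∧ InLevelGroup 𝔫 u₂ ∧ h * h' = u₁ * y * u₂ := by
  obtain ⟨u₁, u₂, h1, h2, rfl⟩ := hh
  obtain ⟨u₃, u₄, h3, h4, rfl⟩ := hh'
  have hu : InLevelGroup 𝔫 (u₂ * u₃) := inLevelGroup_mul270 h2 h3
  obtain ⟨uB, hsB, heB⟩ := exists_localPart270 B (u₂ * u₃)
  have hB : InLevelGroup 𝔫 uB := localPart_mem270 hu hsB heB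
  have hR : InLevelGroup 𝔫 (uB⁻¹ * (u₂ * u₃)) :=
    inLevelGroup_mul270 (inLevelGroup_inv270 hB) hu
  have hR1 : ∀ w : InfinitePlace K, infCompHom129 w (uB⁻¹ * (u₂ * u₃)) = 1 :=
    ((inLevelGroup_iff270 𝔫 _).1 hR).1
  have hR2 : ∀ v ∈ B, finCompHom129 v (uB⁻¹ * (u₂ * u₃)) = 1 := by
    intro v hv
    rw [map_mul, map_inv, heB v hv, inv_mul_cancel]
  have hc : uB⁻¹ * (u₂ * u₃) * g' = g' * (uB⁻¹ * (u₂ * u₃)) := comm_of_supp270 hR1 hR2 hg'
  refine ⟨g * uB * g', suppIn_mul270 (suppIn_mul270 hg hsB) hg', u₁,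
    uB⁻¹ * (u₂ * u₃) * u₄, h1, inLevelGroup_mul270 hR h4, ?_⟩
  calc u₁ * g * u₂ * (u₃ * g' * u₄)
      = u₁ * g * uB * (uB⁻¹ * (u₂ * u₃) * g') * u₄ := by group
    _ = u₁ * g * uB * (g' * (uB⁻¹ * (u₂ * u₃))) * u₄ := by rw [hc]
    _ = u₁ * (g * uB * g') * (uB⁻¹ * (u₂ * u₃) * u₄) := by group

end Level

/-! ## 3. The leaf -/

section Leaf

variable (K K' : Type) [Field K] [NumberField K] [Field K'] [NumberField K'] [Algebra K K']

/-- The bad places: the places of `S'` outside the orbit. -/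
def badSet270 {K K' : Type} [Field K] [NumberField K] [Field K'] [NumberField K']
    [Algebra K K'] (Dt : L2Data K K') : Finset (HeightOneSpectrum (𝓞 K')) :=
  Dt.S'.filter (fun v => ¬ ∃ j < Dt.l, v = Dt.o j)

theorem isBad_iff270 {K K' : Type} [Field K] [NumberField K] [Field K'] [NumberField K']
    [Algebra K K'] (Dt : L2Data K K') (g : G K') :
    Dt.IsBad g ↔ SuppIn270 (badSet270 Dt) g := by
  have hmem : ∀ v : HeightOneSpectrum (𝓞 K'),
      v ∉ badSet270 Dt ↔ (v ∉ Dt.S' ∨ ∃ j < Dt.l, v = Dt.o j) := by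
    intro v
    unfold badSet270
    rw [Finset.mem_filter, not_and_or, not_not]
  constructor
  · rintro ⟨h1, h2⟩
    exact ⟨fun w => (trivAtInf_iff129 w g).1 (h1 w),
      fun v hv => (trivAtFin_iff129 v g).1 (h2 v ((hmem v).1 hv))⟩
  · rintro ⟨h1, h2⟩
    exact ⟨fun w => (trivAtInf_iff129 w g).2 (h1 w),
      fun v hv => (trivAtFin_iff129 v g).2 (h2 v ((hmem v).2 hv))⟩

/-- **LEAF CM.10 = MUL-G**, VERBATIM, unconditional. -/
theorem mulGC270 : CM616.MulGC616 K K' := by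
  intro ℓ Φ Dt _ g g' Hg Hg' hg hHg hg' hHg'
  have hsg : SuppIn270 (badSet270 Dt) g := (isBad_iff270 Dt g).1 hg
  have hsg' : SuppIn270 (badSet270 Dt) g' := (isBad_iff270 Dt g').1 hg'
  obtain ⟨n, c, y, H'', h1, h2⟩ :=
    mul_core270 (U := levelSub270 Dt.𝔑₀) ((isSys_iff270 Dt.𝔑₀ g Hg).2 hHg)
      ((isSys_iff270 Dt.𝔑₀ g' Hg').2 hHg') (fun y => Dt.IsBad y)
      (fun h hh h' hh' => by
        obtain ⟨y, hy, u₁, u₂, hu₁, hu₂, e⟩ :=
          exists_supp_rep270 (𝔫 := Dt.𝔑₀) hsg hsg' (hHg.1 h hh) (hHg'.1 h' hh')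
        exact ⟨y, (isBad_iff270 Dt y).2 hy, u₁, u₂, hu₁, hu₂, e⟩)
  refine ⟨n, c, y, H'', fun i => ⟨(h1 i).1, (isSys_iff270 Dt.𝔑₀ _ _).1 (h1 i).2⟩, ?_⟩
  intro ψ hψ x
  exact h2 ψ ((rinv_iff270 Dt.𝔑₀ ψ).2 hψ) x

end Leaf

end Fermat.Agent.LT.T7.H270

end
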