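import Mathlib

/-!
# Row LT, tower T7, leaf T7.L2Q.1.H2.2 `UnramQC57` (helper270), part 1: the number theory

OFF-MAIN.  Mathlib only.  ADDITIVE (new names only, all suffixed `270`).

`F` a number field with ONE infinite place, which is complex, and with a square root of `-3`.
Then `[F : ℚ] = 2`, `F` is the third cyclotomic field, its discriminant is `-3`, and a prime
number `p ≠ 3` lies in the square of no prime ideal of `𝓞 F`:

    natCast_not_mem_sq270 : p.Prime → p ≠ 3 → P.IsPrime → (p : 𝓞 F) ∉ P ^ 2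

(`P ^ 2 ∣ p` implies `P ∣ 𝔡_{F/ℚ}` (Mathlib `pow_sub_one_dvd_differentIdeal`), hence
`N P ∣ N 𝔡 = |d_F| = 3` (Mathlib `NumberField.absNorm_differentIdeal`,
`IsCyclotomicExtension.Rat.discr_prime`), so `3 ∈ P` and `p ∈ P`, `1 ∈ P`.)
-/

set_option autoImplicit false

open IsDedekindDomain NumberField

noncomputable section

namespace Fermat.Agent.LT.T7.H270

variable {F : Type} [Field F] [NumberField F]

/-- The degree of a number field with one infinite place, which is complex, is two. -/
theorem finrank_eq_two270 (h1 : Nat.card (InfinitePlace F) = 1)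
    (h2 : ∀ w : InfinitePlace F, w.IsComplex) : Module.finrank ℚ F = 2 := by
  classical
  have h0 : InfinitePlace.nrRealPlaces F = 0 := by
    show Fintype.card {w : InfinitePlace F // w.IsReal} = 0
    rw [Fintype.card_eq_zero_iff]
    exact ⟨fun w => InfinitePlace.not_isReal_iff_isComplex.2 (h2 w.1) w.2⟩
  have h1' : InfinitePlace.nrComplexPlaces F = 1 := by
    show Fintype.card {w : InfinitePlace F // w.IsComplex} = 1
    have hc : Fintype.card (InfinitePlace F) = 1 := by
      rw [← Nat.card_eq_fintype_card]; exact h1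
    rw [← hc]
    exact Fintype.card_of_subtype Finset.univ (fun w => by simp [h2 w])
  have := InfinitePlace.card_add_two_mul_card_eq_rank (K := F)
  rw [h0, h1'] at this
  omega

/-- A square root of `-3` is not rational. -/
theorem sqrt_not_rat270 {x : F} (hx : x * x = -3) (q : ℚ) : algebraMap ℚ F q ≠ x := by
  intro h
  rw [← h, ← map_mul] at hx
  have h3 : algebraMap ℚ F (q * q) = algebraMap ℚ F (-3) := by
    rw [hx]; simp
  have h4 : q * q = -3 := (algebraMap ℚ F).injective h3
  nlinarith [mul_self_nonneg q]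

/-- `ℚ(x) = F` for a square root `x` of `-3` in a field of degree two. -/
theorem adjoin_sqrt_eq_top270 (hfin : Module.finrank ℚ F = 2) {x : F} (hx : x * x = -3) :
    Algebra.adjoin ℚ ({x} : Set F) = ⊤ := by
  have hint : IsIntegral ℚ x := Algebra.IsIntegral.isIntegral x
  have hne : IntermediateField.adjoin ℚ ({x} : Set F) ≠ ⊥ := by
    intro hbot
    have hmem : x ∈ IntermediateField.adjoin ℚ ({x} : Set F) :=
      IntermediateField.mem_adjoin_simple_self ℚ x
    rw [hbot, IntermediateField.mem_bot] at hmem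
    obtain ⟨q, hq⟩ := hmem
    exact sqrt_not_rat270 hx q hq
  have htop : IntermediateField.adjoin ℚ ({x} : Set F) = ⊤ := by
    have hprime : (Module.finrank ℚ F).Prime := by rw [hfin]; exact Nat.prime_two
    rcases IntermediateField.isSimpleOrder_of_finrank_prime ℚ F hprime |>.eq_bot_or_eq_top
      (IntermediateField.adjoin ℚ ({x} : Set F)) with hb | ht
    · exact absurd hb hne
    · exact ht
  have := IntermediateField.adjoin_simple_toSubalgebra_of_isAlgebraic hint.isAlgebraic
  rw [htop] at this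
  rw [← this]
  rfl

/-- A number field of degree two with a square root of `-3` is the third cyclotomic field. -/
theorem isCyclotomicExtension270 (hfin : Module.finrank ℚ F = 2) {x : F} (hx : x * x = -3) :
    IsCyclotomicExtension {3} ℚ F := by
  set ζ : F := (x - 1) / 2 with hζ
  have h2 : (2 : F) ≠ 0 := two_ne_zero
  have hx2 : x = 2 * ζ + 1 := by rw [hζ]; field_simp; ring
  have hrel : ζ ^ 2 + ζ + 1 = 0 := by
    have : (2 * ζ + 1) * (2 * ζ + 1) = -3 := by rw [← hx2]; exact hx
    have h4 : (4 : F) * (ζ ^ 2 + ζ + 1) = 0 := by linear_combination this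
    rcases mul_eq_zero.1 h4 with h | h
    · exact absurd h (by norm_num)
    · exact h
  have hcube : ζ ^ 3 = 1 := by linear_combination (ζ - 1) * hrel
  have hne1 : ζ ≠ 1 := by
    intro h1
    rw [h1] at hrel
    norm_num at hrel
  have hprim : IsPrimitiveRoot ζ 3 := by
    refine IsPrimitiveRoot.mk_of_lt ζ (by norm_num) hcube ?_
    intro l hl0 hl3 hl
    interval_cases l
    · exact hne1 (by simpa using hl)
    · have h5 : ζ = -2 := by linear_combination hrel - hl
      rw [h5] at hrel
      norm_num at hrel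
  rw [IsCyclotomicExtension.iff_singleton]
  refine ⟨⟨ζ, hprim⟩, fun y => ?_⟩
  have htop := adjoin_sqrt_eq_top270 hfin hx
  have hsub : Algebra.adjoin ℚ ({x} : Set F) ≤ Algebra.adjoin ℚ {b : F | b ^ 3 = 1} := by
    apply Algebra.adjoin_le
    intro z hz
    rw [Set.mem_singleton_iff] at hz
    rw [hz, hx2]
    have hζmem : ζ ∈ Algebra.adjoin ℚ {b : F | b ^ 3 = 1} :=
      Algebra.subset_adjoin (by simpa using hcube)
    exact Subalgebra.add_mem _ (Subalgebra.mul_mem _ (by
      have : (2 : F) = algebraMap ℚ F 2 := by simp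
      rw [this]; exact Subalgebra.algebraMap_mem _ _) hζmem) (Subalgebra.one_mem _)
  rw [htop] at hsub
  exact hsub Algebra.mem_top

/-- The discriminant of the third cyclotomic field is `-3`. -/
theorem discr_eq270 (hfin : Module.finrank ℚ F = 2) {x : F} (hx : x * x = -3) :
    NumberField.discr F = -3 := by
  have := isCyclotomicExtension270 hfin hx
  have h := IsCyclotomicExtension.Rat.discr_prime 3 F
  rw [h]
  norm_num

/-- **Only `3` ramifies in `ℚ(√-3)`**: a prime number `p ≠ 3` lies in the square of no prime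
ideal of the ring of integers. -/
theorem natCast_not_mem_sq270 (hs : ∃ x : F, x * x = -3)
    (h1 : Nat.card (InfinitePlace F) = 1) (h2 : ∀ w : InfinitePlace F, w.IsComplex)
    (P : Ideal (𝓞 F)) (hP : P.IsPrime) (p : ℕ) (hp : p.Prime) (hp3 : p ≠ 3) :
    ((p : ℕ) : 𝓞 F) ∉ P ^ 2 := by
  intro hmem
  obtain ⟨x, hx⟩ := hs
  have hfin := finrank_eq_two270 h1 h2
  have hd := discr_eq270 hfin hx
  -- the prime of `ℤ`
  have hpZ : Prime (p : ℤ) := Nat.prime_iff_prime_int.mp hp
  have hmax : (Ideal.span {(p : ℤ)}).IsMaximal :=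
    PrincipalIdealRing.isMaximal_of_irreducible hpZ.irreducible
  have hbot : Ideal.span {(p : ℤ)} ≠ ⊥ := by
    rw [Ne, Ideal.span_singleton_eq_bot]
    exact hpZ.ne_zero
  have hle : (Ideal.span {(p : ℤ)}).map (algebraMap ℤ (𝓞 F)) ≤ P ^ 2 := by
    rw [Ideal.map_span, Set.image_singleton, Ideal.span_le]
    intro y hy
    rw [Set.mem_singleton_iff] at hy
    rw [hy]
    simpa using hmem
  have hdvd : P ^ 2 ∣ (Ideal.span {(p : ℤ)}).map (algebraMap ℤ (𝓞 F)) :=
    Ideal.dvd_iff_le.mpr hle
  have hdiff : P ^ (2 - 1) ∣ differentIdeal ℤ (𝓞 F) :=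
    pow_sub_one_dvd_differentIdeal ℤ P 2 hbot hdvd
  have hdiff' : differentIdeal ℤ (𝓞 F) ≤ P := by
    have : P ∣ differentIdeal ℤ (𝓞 F) := by simpa using hdiff
    exact Ideal.dvd_iff_le.mp this
  have hN : Ideal.absNorm P ∣ 3 := by
    have := Ideal.absNorm_dvd_absNorm_of_le hdiff'
    rw [NumberField.absNorm_differentIdeal F (𝓞 F), hd] at this
    simpa using this
  have hpP : ((p : ℕ) : 𝓞 F) ∈ P := Ideal.pow_le_self (by norm_num) hmem
  have hNP : ((Ideal.absNorm P : ℕ) : 𝓞 F) ∈ P := Ideal.absNorm_mem P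
  have h3P : ((3 : ℕ) : 𝓞 F) ∈ P := by
    obtain ⟨c, hc⟩ := hN
    have : ((3 : ℕ) : 𝓞 F) = ((Ideal.absNorm P : ℕ) : 𝓞 F) * ((c : ℕ) : 𝓞 F) := by
      rw [← Nat.cast_mul, ← hc]
    rw [this]
    exact Ideal.mul_mem_right _ _ hNP
  have hcop : Nat.Coprime p 3 := (Nat.coprime_primes hp Nat.prime_three).mpr hp3
  have hone : (1 : 𝓞 F) ∈ P := by
    have hg : IsCoprime (p : ℤ) (3 : ℤ) := by
      have := Nat.isCoprime_iff_coprime.mpr hcop
      simpa using this
    obtain ⟨a, b, hab⟩ := hg
    have h : (1 : 𝓞 F) = (a : 𝓞 F) * ((p : ℕ) : 𝓞 F) + (b : 𝓞 F) * ((3 : ℕ) : 𝓞 F) := by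
      have := congrArg (Int.cast : ℤ → 𝓞 F) hab
      push_cast at this
      push_cast
      exact this.symm
    rw [h]
    exact Ideal.add_mem _ (Ideal.mul_mem_left _ _ hpP) (Ideal.mul_mem_left _ _ h3P)
  exact hP.ne_top ((Ideal.eq_top_iff_one P).mpr hone)

end Fermat.Agent.LT.T7.H270

end
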